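import Mathlib.RingTheory.ZMod.UnitsCyclic
import Mathlib.Tactic

/-!
# Gauss's generalisation of Wilson's theorem

The product of all units reduces to the product of the square roots of `1`; these come in pairs
`u`, `-u`, and a root other than `± 1` pairs the pairs.
-/

set_option autoImplicit false

open Finset

namespace FA.GaussWilson

theorem neg_val {n : ℕ} [NeZero n] (u : (ZMod n)ˣ) (h : 2 < n) :
    ((-u : (ZMod n)ˣ) : ZMod n).val = n - (u : ZMod n).val ∧ 0 < (u : ZMod n).val := by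
  have : Fact (1 < n) := ⟨by omega⟩
  have h0 : (u : ZMod n) ≠ 0 := u.ne_zero
  rw [Units.val_neg, ZMod.neg_val, if_neg h0]
  exact ⟨rfl, Nat.pos_of_ne_zero fun h' => h0 ((ZMod.val_eq_zero _).1 h')⟩

theorem neg_ne_self {n : ℕ} [NeZero n] (u : (ZMod n)ˣ) (h : 2 < n) : -u ≠ u := by
  intro he
  have : ((1 : ℕ) + 1 : ℕ) = ((0 : ℕ) : ZMod n) := by
    have h' : (-1 : (ZMod n)ˣ) = 1 := by
      have := congrArg (· * u⁻¹) he
      simpa using this
    have h'' := congrArg Units.val h'
    push_cast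
    simp only [Units.val_neg, Units.val_one] at h''
    linear_combination -h''
  rw [ZMod.natCast_eq_natCast_iff', Nat.mod_eq_of_lt h, Nat.zero_mod] at this
  omega

theorem prod_units_eq {n : ℕ} [NeZero n] :
    ∏ u : (ZMod n)ˣ, u = ∏ u ∈ univ.filter (fun u : (ZMod n)ˣ => u ^ 2 = 1), u := by
  rw [← prod_filter_mul_prod_filter_not univ (fun u : (ZMod n)ˣ => u ^ 2 = 1)]
  convert mul_one _ using 2
  refine prod_involution (fun u _ => u⁻¹) (by simp) (fun u hu _ he => ?_) (fun u hu => ?_)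
    (by simp)
  · refine (mem_filter.1 hu).2 ?_
    rw [sq]
    exact mul_eq_one_iff_eq_inv.2 he.symm
  · simp only [mem_filter, mem_univ, true_and] at hu ⊢
    rwa [inv_pow, inv_eq_one]

theorem prod_units_noncyclic {n : ℕ} [NeZero n] (hn : 2 < n) {t : (ZMod n)ˣ} (ht : t ^ 2 = 1)
    (ht1 : t ≠ 1) (ht2 : t ≠ -1) : ∏ u : (ZMod n)ˣ, u = 1 := by
  rw [prod_units_eq]
  set H := univ.filter (fun u : (ZMod n)ˣ => u ^ 2 = 1)
  set P : (ZMod n)ˣ → Prop := fun u => 2 * (u : ZMod n).val < n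
  have hP : ∀ u ∈ H, P (-u) ↔ ¬P u := by
    intro u _
    obtain ⟨e, e0⟩ := neg_val u hn
    have hne : 2 * (u : ZMod n).val ≠ n := fun h => by
      have := congrArg ((↑) : ℕ → ZMod n) h
      rw [Nat.cast_mul, ZMod.natCast_zmod_val, ZMod.natCast_self] at this
      have h2 : (u : ZMod n) + u = 0 := by rw [← two_mul]; exact_mod_cast this
      exact neg_ne_self u hn (Units.ext (by rw [Units.val_neg]; linear_combination -h2))
    have := ZMod.val_lt (u : ZMod n)
    simp only [P, e]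
    omega
  have hmem : ∀ u, u ∈ H ↔ u ^ 2 = 1 := fun u => by simp [H]
  rw [← prod_filter_mul_prod_filter_not H P]
  have hbij : ∏ u ∈ H.filter (fun u => ¬P u), u = ∏ u ∈ H.filter P, -u := by
    refine prod_nbij' (fun u => -u) (fun u => -u) ?_ ?_ (by simp) (by simp) (by simp)
    · intro u hu
      obtain ⟨h1, h2⟩ := mem_filter.1 hu
      exact mem_filter.2 ⟨(hmem _).2 (by rw [neg_sq, (hmem u).1 h1]), (hP u h1).2 h2⟩
    · intro u hu
      obtain ⟨h1, h2⟩ := mem_filter.1 hu
      exact mem_filter.2 ⟨(hmem _).2 (by rw [neg_sq, (hmem u).1 h1]),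
        fun h => (hP u h1).1 h h2⟩
  rw [hbij, ← prod_mul_distrib]
  have hsq : ∀ u ∈ H.filter P, u * -u = -1 := fun u hu => by
    rw [mul_neg, ← sq, (hmem u).1 (mem_filter.1 hu).1]
  rw [prod_congr rfl hsq]
  have hrep : ∀ u ∈ H, (if P (t * u) then t * u else -(t * u)) ∈ H.filter P := by
    intro u hu
    have h : t * u ∈ H := (hmem _).2 (by rw [mul_pow, ht, (hmem u).1 hu, one_mul])
    split_ifs with hc
    · exact mem_filter.2 ⟨h, hc⟩
    · exact mem_filter.2 ⟨(hmem _).2 (by rw [neg_sq, (hmem _).1 h]), (hP _ h).2 hc⟩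
  refine prod_involution (fun u _ => if P (t * u) then t * u else -(t * u))
    (fun u _ => by simp) (fun u hu _ he => ?_) (fun u hu => hrep u (mem_filter.1 hu).1)
    (fun u hu => ?_)
  · split_ifs at he with hc
    · exact ht1 (by simpa using he)
    · refine ht2 ?_
      have := congrArg (fun x => -(x * u⁻¹)) he
      simpa using this
  · obtain ⟨h1, h2⟩ := mem_filter.1 hu
    have htt : t * t = 1 := by rw [← sq, ht]
    by_cases hc : P (t * u)
    · simp [hc, ← mul_assoc, htt, h2]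
    · simp only [if_neg hc, mul_neg, ← mul_assoc, htt, one_mul]
      rw [if_neg fun h => (hP u h1).1 h h2, neg_neg]

theorem prod_units_cyclic {n : ℕ} [NeZero n] (hn : 2 < n) (h : IsCyclic (ZMod n)ˣ) :
    ∏ u : (ZMod n)ˣ, u = -1 := by
  rw [prod_units_eq]
  have hne : (1 : (ZMod n)ˣ) ≠ -1 := fun he => neg_ne_self 1 hn he.symm
  have hH : univ.filter (fun u : (ZMod n)ˣ => u ^ 2 = 1) = {1, -1} := by
    refine (eq_of_subset_of_card_le (fun u hu => ?_) ?_).symm
    · simp only [mem_insert, mem_singleton] at hu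
      rcases hu with rfl | rfl <;> simp
    · rw [card_pair hne]
      exact IsCyclic.card_pow_eq_one_le two_pos
  rw [hH, prod_pair hne, one_mul]

theorem exists_sqrt_one {n : ℕ} [NeZero n] (h : ¬IsCyclic (ZMod n)ˣ) :
    2 < n ∧ ∃ t : (ZMod n)ˣ, t ^ 2 = 1 ∧ t ≠ 1 ∧ t ≠ -1 := by
  rw [ZMod.isCyclic_units_iff] at h
  simp only [not_or, not_exists] at h
  obtain ⟨h0, h1, h2, h4, hf⟩ := h
  refine ⟨by omega, ?_⟩
  suffices ∃ x : ZMod n, x * x = 1 ∧ x ≠ 1 ∧ x ≠ -1 by
    obtain ⟨x, hx, hx1, hx2⟩ := this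
    refine ⟨⟨x, x, hx, hx⟩, Units.ext (by simpa [sq] using hx), ?_, ?_⟩ <;> intro he
    · exact hx1 (congrArg Units.val he)
    · exact hx2 (congrArg Units.val he)
  have small : ∀ j : ℕ, 0 < j → j < n → (j : ZMod n) ≠ 0 := fun j hj hjn h => by
    rw [ZMod.natCast_eq_zero_iff] at h
    exact absurd (Nat.le_of_dvd hj h) (by omega)
  rcases Nat.eq_two_pow_or_exists_odd_prime_and_dvd n with ⟨k, rfl⟩ | ⟨p, hp, hpn, hodd⟩
  · have hk : 3 ≤ k := by
      by_contra hk
      interval_cases k <;> simp_all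
    obtain ⟨j, rfl⟩ : ∃ j, k = j + 3 := ⟨k - 3, by omega⟩
    have hpow : 2 ^ (j + 3) = 2 * 2 ^ (j + 2) := pow_succ' 2 _
    have hpow2 : 4 ≤ 2 ^ (j + 2) := by
      rw [pow_add]
      have := Nat.two_pow_pos j
      omega
    refine ⟨((2 ^ (j + 2) + 1 : ℕ) : ZMod (2 ^ (j + 3))), ?_, fun he => ?_, fun he => ?_⟩
    · have hz : ((2 : ℕ) ^ (j + 3) : ℕ) = ((0 : ℕ) : ZMod (2 ^ (j + 3))) := by simp
      push_cast at hz ⊢
      linear_combination (2 ^ (j + 1) + 1 : ZMod (2 ^ (j + 3))) * hz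
    · refine small (2 ^ (j + 2)) (by positivity) (by omega) ?_
      push_cast at he ⊢
      linear_combination he
    · refine small (2 ^ (j + 2) + 2) (by positivity) (by omega) ?_
      push_cast at he ⊢
      linear_combination he
  · obtain ⟨k, m, hpm, rfl⟩ := Nat.exists_eq_pow_mul_and_not_dvd h0 p hp.ne_one
    have hk : k ≠ 0 := by
      rintro rfl
      rw [pow_zero, one_mul] at hpn
      exact hpm hpn
    have hm : 2 < m := by
      by_contra hm
      interval_cases m
      · simp at hpm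
      · exact hf p k ⟨hp, hodd, by omega, Or.inl (mul_one _)⟩
      · exact hf p k ⟨hp, hodd, by omega, Or.inr (mul_comm _ _)⟩
    have hc : (p ^ k).Coprime m := (hp.coprime_iff_not_dvd.2 hpm).pow_left k
    have hq : 2 < p ^ k := by
      have := Nat.le_self_pow hk p
      have := hp.two_le
      rcases eq_or_ne p 2 with rfl | hp2
      · exact absurd hodd (by decide)
      · omega
    let φ := ZMod.chineseRemainder hc
    have : Fact (2 < p ^ k) := ⟨hq⟩
    have : Fact (2 < m) := ⟨hm⟩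
    refine ⟨φ.symm (1, -1), φ.injective (by simp), fun he => ?_, fun he => ?_⟩
    · have := congrArg φ he
      simp only [RingEquiv.apply_symm_apply, map_one, Prod.ext_iff, Prod.snd_one] at this
      exact ZMod.neg_one_ne_one this.2
    · have := congrArg φ he
      simp only [RingEquiv.apply_symm_apply, map_neg, map_one, Prod.ext_iff, Prod.fst_neg,
        Prod.fst_one] at this
      exact ZMod.neg_one_ne_one this.1.symm

theorem wilson {n : ℕ} [NeZero n] :
    ((∏ u : (ZMod n)ˣ, (u : ZMod n)) = -1 ↔ IsCyclic (ZMod n)ˣ) ∧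
      (¬IsCyclic (ZMod n)ˣ → (∏ u : (ZMod n)ˣ, (u : ZMod n)) = 1) := by
  rw [← Units.coe_prod]
  by_cases h : IsCyclic (ZMod n)ˣ
  · refine ⟨iff_of_true ?_ h, fun h' => absurd h h'⟩
    rcases Nat.lt_or_ge 2 n with hn | hn
    · rw [prod_units_cyclic hn h, Units.val_neg, Units.val_one]
    · have := Nat.pos_of_neZero n
      interval_cases n
      · exact Subsingleton.elim _ _
      · rw [Subsingleton.elim (∏ i : (ZMod 2)ˣ, i) 1]
        decide
  · obtain ⟨hn, t, ht, ht1, ht2⟩ := exists_sqrt_one h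
    rw [prod_units_noncyclic hn ht ht1 ht2, Units.val_one]
    have : Fact (2 < n) := ⟨hn⟩
    exact ⟨iff_of_false ZMod.neg_one_ne_one.symm h, fun _ => rfl⟩

end FA.GaussWilson
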