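import Mathlib.GroupTheory.Perm.Cycle.Basic
import Mathlib.NumberTheory.LegendreSymbol.JacobiSymbol
import Mathlib.Tactic

/-!
# The lemma of Zolotarev and Frobenius

For an odd prime a generator of the units is a single cycle of even length, and for odd `m`, `k`
multiplication on `ZMod (m * k)` is a skew product of the multiplications on the two factors.
-/

set_option autoImplicit false

open Equiv Equiv.Perm

namespace FA.Zolotarev

/-- The units of `ZMod p` acting by multiplication. -/
def mulHom (p : ℕ) : (ZMod p)ˣ →* Perm (ZMod p) := MulAction.toPermHom (ZMod p)ˣ (ZMod p)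

theorem mulHom_apply {p : ℕ} (u : (ZMod p)ˣ) (x : ZMod p) : mulHom p u x = (u : ZMod p) * x := rfl

theorem sign_mulHom (p : ℕ) [Fact p.Prime] (hp : p ≠ 2) (u : (ZMod p)ˣ) :
    ((sign (mulHom p u) : ℤˣ) : ℤ) = quadraticChar (ZMod p) (u : ZMod p) := by
  obtain ⟨g, hg⟩ := IsCyclic.exists_generator (α := (ZMod p)ˣ)
  have hrc : ringChar (ZMod p) ≠ 2 := by rwa [ZMod.ringChar_zmod_n]
  have hchar : quadraticChar (ZMod p) (g : ZMod p) = -1 := by
    refine (quadraticChar_dichotomy g.ne_zero).resolve_left fun h1 => ?_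
    obtain ⟨a, ha⟩ := quadraticChar_exists_neg_one hrc
    have ha0 : a ≠ 0 := by
      rintro rfl
      simp at ha
    obtain ⟨i, hi⟩ := mem_powers_iff_mem_zpowers.2
      (hg (Units.mk0 a ha0))
    have e : (g : ZMod p) ^ i = a := by
      simpa using congrArg (Units.val) hi
    rw [← e, map_pow, h1, one_pow] at ha
    norm_num at ha
  have hg1 : (g : ZMod p) ≠ 1 := by
    intro h
    rw [h, map_one] at hchar
    norm_num at hchar
  have hfix : ∀ x, mulHom p g x ≠ x ↔ x ≠ 0 := by
    intro x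
    rw [mulHom_apply]
    exact ⟨fun h h0 => h (by rw [h0, mul_zero]), fun h0 h => hg1 ((mul_eq_right₀ h0).1 h)⟩
  have hcyc : IsCycle (mulHom p g) := by
    refine ⟨1, (hfix 1).2 one_ne_zero, fun y hy => ?_⟩
    obtain ⟨i, hi⟩ := Subgroup.mem_zpowers_iff.1 (hg (Units.mk0 y ((hfix y).1 hy)))
    refine ⟨i, ?_⟩
    rw [← map_zpow, hi, mulHom_apply, mul_one, Units.val_mk0]
  have hsupp : (mulHom p g).support.card = p - 1 := by
    have h : (mulHom p g).support = Finset.univ.erase 0 := by
      ext x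
      simp [mem_support, hfix]
    rw [h, Finset.card_erase_of_mem (Finset.mem_univ _), Finset.card_univ, ZMod.card]
  have hsign : sign (mulHom p g) = -1 := by
    rw [hcyc.sign, hsupp, Even.neg_one_pow]
    obtain ⟨c, hc⟩ := (Fact.out : p.Prime).odd_of_ne_two hp
    exact ⟨c, by omega⟩
  obtain ⟨i, rfl⟩ := mem_powers_iff_mem_zpowers.2 (hg u)
  simp only [map_pow, hsign, Units.val_pow_eq_pow_val, Units.val_neg, Units.val_one, hchar]

theorem exists_perm {n : ℕ} {a : ℤ} (ha : IsUnit (a : ZMod n)) :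
    ∃ e : Perm (ZMod n), ∀ x, e x = a * x :=
  ⟨mulHom n ha.unit, fun x => by rw [mulHom_apply, IsUnit.unit_spec]⟩

theorem isUnit_of_perm {n : ℕ} {a : ℤ} (e : Perm (ZMod n)) (he : ∀ x, e x = a * x) :
    IsUnit (a : ZMod n) :=
  IsUnit.of_mul_eq_one (e.symm 1) (by rw [← he, apply_symm_apply])

theorem isUnit_of_dvd {n d : ℕ} (h : d ∣ n) {a : ℤ} (ha : IsUnit (a : ZMod n)) :
    IsUnit (a : ZMod d) := by
  simpa using ha.map (ZMod.castHom h (ZMod d))

theorem units_pow_odd (u : ℤˣ) {m : ℕ} (hm : Odd m) : u ^ m = u := by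
  rw [Int.units_pow_eq_pow_mod_two, Nat.odd_iff.1 hm, pow_one]

theorem sign_addRight {m : ℕ} [NeZero m] (hm : Odd m) (c : ZMod m) :
    sign (Equiv.addRight c) = 1 := by
  obtain ⟨r, hr⟩ := hm
  have h2 : (2 : ZMod m) * (r + 1 : ℕ) = 1 := by
    rw [show ((2 : ZMod m)) = ((2 : ℕ) : ZMod m) by norm_num, ← Nat.cast_mul,
      show 2 * (r + 1) = m + 1 by omega, Nat.cast_add, ZMod.natCast_self, zero_add, Nat.cast_one]
  have h : Equiv.addRight c =
      Equiv.addRight (c * (r + 1 : ℕ)) * Equiv.addRight (c * (r + 1 : ℕ)) := by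
    ext x
    rw [Perm.mul_apply, coe_addRight, coe_addRight]
    linear_combination -c * h2
  rw [h, map_mul, Int.units_mul_self]

theorem sign_mul_modulus {m k : ℕ} [NeZero m] [NeZero k] (hm : Odd m) (hk : Odd k) (a : ℤ)
    (e : Perm (ZMod (m * k))) (he : ∀ x, e x = a * x) (em : Perm (ZMod m))
    (hem : ∀ x, em x = a * x) (ek : Perm (ZMod k)) (hek : ∀ x, ek x = a * x) :
    sign e = sign em * sign ek := by
  have key : ∀ x y : ℤ, (x : ZMod m) = y →
      (((k : ℤ) * x : ℤ) : ZMod (m * k)) = (((k : ℤ) * y : ℤ) : ZMod (m * k)) := by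
    intro x y h
    rw [ZMod.intCast_eq_intCast_iff_dvd_sub] at h ⊢
    obtain ⟨c, hc⟩ := h
    exact ⟨c, by push_cast; linear_combination (k : ℤ) * hc⟩
  set f : ZMod k × ZMod m → ZMod (m * k) :=
    fun ij => ((ij.1.val + k * ij.2.val : ℕ) : ZMod (m * k))
  have hlt : ∀ ij : ZMod k × ZMod m, ij.1.val + k * ij.2.val < m * k := fun ij => by
    calc ij.1.val + k * ij.2.val < k + k * ij.2.val := Nat.add_lt_add_right (ZMod.val_lt _) _
      _ = k * (ij.2.val + 1) := by ring
      _ ≤ k * m := Nat.mul_le_mul_left _ (ZMod.val_lt _)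
      _ = m * k := mul_comm _ _
  have hf : f.Bijective := by
    refine (Fintype.bijective_iff_injective_and_card f).2 ⟨fun u v huv => ?_, ?_⟩
    · have h := congrArg ZMod.val huv
      rw [ZMod.val_natCast, ZMod.val_natCast, Nat.mod_eq_of_lt (hlt u),
        Nat.mod_eq_of_lt (hlt v)] at h
      have h1 : u.1.val = v.1.val := by
        have := congrArg (· % k) h
        simpa [Nat.add_mul_mod_self_left, Nat.mod_eq_of_lt (ZMod.val_lt _)] using this
      refine Prod.ext (ZMod.val_injective _ h1) (ZMod.val_injective _ ?_)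
      exact Nat.eq_of_mul_eq_mul_left (Nat.pos_of_neZero k) (by omega)
    · rw [Fintype.card_prod, ZMod.card, ZMod.card, ZMod.card, mul_comm]
  set c : ZMod k → ZMod m := fun i => (((a * i.val) / k : ℤ) : ZMod m)
  set T : Perm (ZMod k × ZMod m) :=
    (prodCongrRight fun i => em.trans (Equiv.addRight (c i))).trans
      (prodCongrLeft fun _ => ek)
  have hT : sign T = sign em * sign ek := by
    rw [sign_trans, sign_prodCongrRight, sign_prodCongrLeft]
    simp only [sign_trans, sign_addRight hm, one_mul, Finset.prod_const, Finset.card_univ,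
      ZMod.card, units_pow_odd _ hm, units_pow_odd _ hk]
    rw [mul_comm]
  rw [← hT]
  refine (sign_eq_sign_of_equiv T e (Equiv.ofBijective f hf) fun ⟨i, j⟩ => ?_).symm
  show f (ek i, em j + c i) = e (f (i, j))
  rw [he]
  simp only [f, c]
  have hr : ((ek i).val : ℤ) = (a * i.val) % k := by
    rw [← ZMod.val_intCast (a * i.val), hek]
    simp
  have hs := key ((em j + (((a * i.val) / k : ℤ) : ZMod m)).val : ℤ)
    (a * j.val + (a * i.val) / k) (by rw [hem]; simp)
  have hdiv := Int.mul_ediv_add_emod (a * i.val) k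
  push_cast at hs ⊢
  rw [hs, ← Int.cast_natCast (R := ZMod (m * k)) (ek i).val, hr]
  have h' := congrArg (Int.cast : ℤ → ZMod (m * k)) hdiv
  push_cast at h'
  linear_combination h'

/-- Zolotarev's lemma, in the general form of Frobenius. -/
theorem sign_eq_jacobiSym {n : ℕ} [hn0 : NeZero n] (hn : Odd n) (a : ℤ) (e : Perm (ZMod n))
    (he : ∀ x, e x = a * x) : ((sign e : ℤˣ) : ℤ) = jacobiSym a n := by
  suffices h : ∀ n : ℕ, ∀ _ : NeZero n, Odd n → ∀ e : Perm (ZMod n), (∀ x, e x = a * x) →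
      ((sign e : ℤˣ) : ℤ) = jacobiSym a n from h n hn0 hn e he
  clear he e hn hn0 n
  intro n
  induction n using induction_on_primes with
  | zero => exact fun h => absurd rfl h.out
  | one =>
    intro _ _ e _
    rw [Subsingleton.elim e 1, map_one, jacobiSym.one_right, Units.val_one]
  | prime_mul p r hp ih =>
    intro hne hodd e he
    have := Fact.mk hp
    have : NeZero r := ⟨fun h => hne.out (by rw [h, mul_zero])⟩
    obtain ⟨hpodd, hrodd⟩ := Nat.odd_mul.1 hodd
    have hu := isUnit_of_perm e he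
    obtain ⟨ep, hep⟩ := exists_perm (isUnit_of_dvd (dvd_mul_right p r) hu)
    obtain ⟨er, her⟩ := exists_perm (isUnit_of_dvd (dvd_mul_left r p) hu)
    rw [sign_mul_modulus hpodd hrodd a e he ep hep er her, Units.val_mul,
      ih inferInstance hrodd er her, jacobiSym.mul_right, ← jacobiSym.legendreSym.to_jacobiSym p a,
      legendreSym]
    congr 1
    have hpu := isUnit_of_dvd (dvd_mul_right p r) hu
    have hp2 : p ≠ 2 := by
      rintro rfl
      exact absurd hpodd (by decide)
    have hperm : ep = mulHom p hpu.unit :=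
      Equiv.ext fun x => by rw [hep, mulHom_apply, IsUnit.unit_spec]
    rw [hperm, sign_mulHom p hp2, IsUnit.unit_spec]

end FA.Zolotarev
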